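/-
Program A (S42 / S29), descent route DESC, leaves (G2) and (LIFT) (helper72).

`k ⊆ L` fields, `Fk / k` and `FL / L` fields with `FL = Frac (L ⊗[k] Fk)` (hypotheses `φ`, `hφ`,
`hgen`, `hcompat` exactly as in helper19's `exists_gauss_const`), `i₂ : Fk → FL`.

* `IsLift i₂ Q P`   : the place `P` of `FL / L` restricts to the place `Q` of `Fk / k` without
                      ramification: `P.ord (i₂ f) = Q.ord f`.
* `exists_isLift`   : **(G2)** every place of `Fk / k` with residue field `k` has a lift (the Gauss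
                      extension of its valuation ring along `Fk ⊗[k] L`).
-/
import Mathlib
import Fermat.Agent.S29.H19.GaussExt
import Fermat.Agent.S24.Ord
import Fermat.Agent.S24.Residue
import Fermat.Agent.S24.H52.AddVal

set_option autoImplicit false
set_option linter.unusedSectionVars false

open TensorProduct AlgebraicCurve

noncomputable section

namespace Fermat.Agent.S42.H72

open Fermat.Agent.S24

variable {k L Fk FL : Type*} [Field k] [Field L] [Field Fk] [Field FL] [Algebra k L]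
  [Algebra k Fk] [Algebra L FL]

/-- The place `P` of `FL / L` lies over the place `Q` of `Fk / k`, without ramification. -/
def IsLift (i₂ : Fk →+* FL) (Q : Place k Fk) (P : Place L FL) : Prop :=
  ∀ f : Fk, P.ord (i₂ f) = Q.ord f

omit [Algebra k L] in
/-- A place is determined by its lift. -/
theorem isLift_injective (i₂ : Fk →+* FL) {Q Q' : Place k Fk} {P : Place L FL}
    (h : IsLift i₂ Q P) (h' : IsLift i₂ Q' P) : Q = Q' :=
  place_ext_of_ord fun f _ => by rw [← h f, ← h' f]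

section Gauss

variable (i₂ : Fk →+* FL) (V : ValuationSubring FL) (Q : Place k Fk)

variable (L) in
/-- The abstract properties of the Gauss extension `V` of the valuation ring of `Q`. -/
structure IsGaussLift : Prop where
  mem_iff : ∀ a : Fk, i₂ a ∈ V ↔ a ∈ Q.toValuationSubring
  const_mem : ∀ c : L, algebraMap L FL c ∈ V
  scale : ∀ ω : FL, ω ≠ 0 → ∃ a : Fk, a ≠ 0 ∧ ω * i₂ a ∈ V ∧ (ω * i₂ a)⁻¹ ∈ V

variable {i₂ V Q}

open Classical in
/-- The order function of the Gauss extension. -/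
def gaussOrd (h : IsGaussLift L i₂ V Q) (ω : FL) : ℤ :=
  if hω : ω = 0 then 0 else - Q.ord (h.scale ω hω).choose

theorem gaussOrd_eq (h : IsGaussLift L i₂ V Q) {ω : FL} (hω : ω ≠ 0) {a : Fk} (ha : a ≠ 0)
    (h1 : ω * i₂ a ∈ V) (h2 : (ω * i₂ a)⁻¹ ∈ V) : gaussOrd h ω = - Q.ord a := by
  rw [gaussOrd, dif_neg hω]
  obtain ⟨ha', h1', h2'⟩ := (h.scale ω hω).choose_spec
  set a' := (h.scale ω hω).choose
  have hia : i₂ a ≠ 0 := (map_ne_zero i₂).mpr ha
  have hia' : i₂ a' ≠ 0 := (map_ne_zero i₂).mpr ha'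
  have e1 : i₂ (a / a') = (ω * i₂ a) * (ω * i₂ a')⁻¹ := by
    rw [map_div₀]
    field_simp
  have e2 : i₂ (a' / a) = (ω * i₂ a') * (ω * i₂ a)⁻¹ := by
    rw [map_div₀]
    field_simp
  have m1 : a / a' ∈ Q.toValuationSubring := (h.mem_iff _).mp (e1 ▸ V.mul_mem _ _ h1 h2')
  have m2 : a' / a ∈ Q.toValuationSubring := (h.mem_iff _).mp (e2 ▸ V.mul_mem _ _ h1' h2)
  have o1 := (mem_iff_ord_nonneg Q (div_ne_zero ha ha')).mp m1
  have o2 := (mem_iff_ord_nonneg Q (div_ne_zero ha' ha)).mp m2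
  rw [ord_div Q ha ha'] at o1
  rw [ord_div Q ha' ha] at o2
  omega

theorem gaussOrd_map (h : IsGaussLift L i₂ V Q) {g : Fk} (hg : g ≠ 0) :
    gaussOrd h (i₂ g) = Q.ord g := by
  have hig : i₂ g ≠ 0 := (map_ne_zero i₂).mpr hg
  have e : i₂ g * i₂ g⁻¹ = 1 := by rw [← map_mul, mul_inv_cancel₀ hg, map_one]
  rw [gaussOrd_eq h hig (inv_ne_zero hg) (e ▸ V.one_mem) (by rw [e, inv_one]; exact V.one_mem),
    Q.ord_inv, neg_neg]

theorem isAddVal_gaussOrd (h : IsGaussLift L i₂ V Q) : H52.IsAddVal (gaussOrd h) where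
  map_one := by
    rw [gaussOrd_eq h one_ne_zero one_ne_zero (by rw [map_one, mul_one]; exact V.one_mem)
      (by rw [map_one, mul_one, inv_one]; exact V.one_mem), Q.ord_one, neg_zero]
  map_mul := by
    intro f g hf hg
    obtain ⟨a, ha, a1, a2⟩ := h.scale f hf
    obtain ⟨b, hb, b1, b2⟩ := h.scale g hg
    have e : f * g * i₂ (a * b) = (f * i₂ a) * (g * i₂ b) := by
      rw [map_mul]
      ring
    rw [gaussOrd_eq h (mul_ne_zero hf hg) (mul_ne_zero ha hb) (e ▸ V.mul_mem _ _ a1 b1)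
      (by rw [e, mul_inv]; exact V.mul_mem _ _ a2 b2), gaussOrd_eq h hf ha a1 a2,
      gaussOrd_eq h hg hb b1 b2, Q.ord_mul ha hb]
    ring
  map_add := by
    -- it suffices to treat the case where the first summand has the smaller value
    have key : ∀ f g : FL, f ≠ 0 → g ≠ 0 → f + g ≠ 0 → gaussOrd h f ≤ gaussOrd h g →
        gaussOrd h f ≤ gaussOrd h (f + g) := by
      intro f g hf hg hfg hle
      obtain ⟨a, ha, a1, a2⟩ := h.scale f hf
      obtain ⟨b, hb, b1, b2⟩ := h.scale g hg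
      obtain ⟨c, hc, c1, c2⟩ := h.scale (f + g) hfg
      rw [gaussOrd_eq h hf ha a1 a2, gaussOrd_eq h hg hb b1 b2] at hle
      rw [gaussOrd_eq h hf ha a1 a2, gaussOrd_eq h hfg hc c1 c2]
      have hib : i₂ b ≠ 0 := (map_ne_zero i₂).mpr hb
      have hic : i₂ c ≠ 0 := (map_ne_zero i₂).mpr hc
      have mab : a / b ∈ Q.toValuationSubring := by
        rw [mem_iff_ord_nonneg Q (div_ne_zero ha hb), ord_div Q ha hb]
        omega
      have e1 : (f + g) * i₂ a = f * i₂ a + (g * i₂ b) * i₂ (a / b) := by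
        rw [map_div₀]
        field_simp
      have m1 : (f + g) * i₂ a ∈ V := by
        rw [e1]
        exact V.add_mem _ _ a1 (V.mul_mem _ _ b1 ((h.mem_iff _).mpr mab))
      have e2 : i₂ (a / c) = ((f + g) * i₂ a) * ((f + g) * i₂ c)⁻¹ := by
        rw [map_div₀]
        field_simp
      have m2 : a / c ∈ Q.toValuationSubring := (h.mem_iff _).mp (e2 ▸ V.mul_mem _ _ m1 c2)
      have o2 := (mem_iff_ord_nonneg Q (div_ne_zero ha hc)).mp m2
      rw [ord_div Q ha hc] at o2
      omega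
    intro f g hf hg hfg
    rcases le_total (gaussOrd h f) (gaussOrd h g) with hle | hle
    · rw [min_eq_left hle]
      exact key f g hf hg hfg hle
    · rw [min_eq_right hle]
      have := key g f hg hf (by rwa [add_comm]) hle
      rwa [add_comm] at this

theorem gaussOrd_algebraMap (h : IsGaussLift L i₂ V Q) {c : L} (hc : algebraMap L FL c ≠ 0) :
    gaussOrd h (algebraMap L FL c) = 0 := by
  have hc0 : c ≠ 0 := by
    rintro rfl
    exact hc (map_zero _)
  rw [gaussOrd_eq h hc one_ne_zero (by rw [map_one, mul_one]; exact h.const_mem c)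
    (by rw [map_one, mul_one, ← map_inv₀]; exact h.const_mem c⁻¹), Q.ord_one, neg_zero]

/-- A Gauss extension of the valuation ring of `Q` is the valuation ring of a lift of `Q`. -/
theorem exists_isLift_of_isGaussLift (h : IsGaussLift L i₂ V Q) :
    ∃ P : Place L FL, IsLift i₂ Q P := by
  obtain ⟨t, ht⟩ := exists_ord_eq_one Q
  have ht0 : t ≠ 0 := by
    rintro rfl
    simp at ht
  have hK : ∀ a : L, algebraMap L FL a ≠ 0 → 0 ≤ gaussOrd h (algebraMap L FL a) :=
    fun a ha => (gaussOrd_algebraMap h ha).ge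
  have hneg : ∃ f : FL, f ≠ 0 ∧ gaussOrd h f < 0 :=
    ⟨i₂ t⁻¹, (map_ne_zero i₂).mpr (inv_ne_zero ht0), by
      rw [gaussOrd_map h (inv_ne_zero ht0), Q.ord_inv, ht]
      norm_num⟩
  have hone : ∃ f : FL, f ≠ 0 ∧ gaussOrd h f = 1 :=
    ⟨i₂ t, (map_ne_zero i₂).mpr ht0, by rw [gaussOrd_map h ht0, ht]⟩
  refine ⟨(isAddVal_gaussOrd h).place hK hneg, fun f => ?_⟩
  by_cases hf : f = 0
  · subst hf
    simp
  · rw [(isAddVal_gaussOrd h).place_ord_eq hK hneg hone _ ((map_ne_zero i₂).mpr hf),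
      gaussOrd_map h hf]

end Gauss

section Exists

variable (i₂ : Fk →+* FL) (φ : L ⊗[k] Fk →+* FL) (hφ : Function.Injective φ)
  (hgen : ∀ ω : FL, ∃ s t : L ⊗[k] Fk, φ s ≠ 0 ∧ ω * φ s = φ t)
  (hcompat : ∀ (a : L) (e : Fk), φ (a ⊗ₜ[k] e) = algebraMap L FL a * i₂ e)

include hφ hgen hcompat in
/-- **(G2)**: a place of `Fk / k` with residue field `k` has a lift to `FL / L`. -/
theorem exists_isLift_of_residue (Q : Place k Fk)
    (hres : ∀ a ∈ Q.toValuationSubring, ∃ c : k,
      a - algebraMap k Fk c ∈ Q.toValuationSubring.nonunits) :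
    ∃ P : Place L FL, IsLift i₂ Q P := by
  set ψ : Fk ⊗[k] L →+* FL :=
    φ.comp ((Algebra.TensorProduct.comm k Fk L : Fk ⊗[k] L ≃ₐ[k] L ⊗[k] Fk) : Fk ⊗[k] L →+* L ⊗[k] Fk)
    with hψ
  have hψt : ∀ (a : Fk) (c : L), ψ (a ⊗ₜ[k] c) = algebraMap L FL c * i₂ a := by
    intro a c
    simp only [hψ, RingHom.comp_apply, RingHom.coe_coe, Algebra.TensorProduct.comm_tmul]
    exact hcompat c a
  have hψinj : Function.Injective ψ := by
    rw [hψ]
    exact hφ.comp (Algebra.TensorProduct.comm k Fk L).injective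
  have hψgen : ∀ ω : FL, ∃ s t : Fk ⊗[k] L, ψ s ≠ 0 ∧ ω * ψ s = ψ t := by
    intro ω
    obtain ⟨s, t, hs, hst⟩ := hgen ω
    refine ⟨(Algebra.TensorProduct.comm k Fk L).symm s, (Algebra.TensorProduct.comm k Fk L).symm t,
      ?_, ?_⟩
    · simpa [hψ] using hs
    · simpa [hψ] using hst
  obtain ⟨V, res, h1, h2, -, h4, -⟩ := Fermat.Agent.S29.H19.exists_gaussExt_of_ringHom
    Q.toValuationSubring Q.algebraMap_mem' hres ψ hψgen hψinj
  have hψ1 : ∀ a : Fk, ψ (a ⊗ₜ[k] (1 : L)) = i₂ a := fun a => by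
    rw [hψt, map_one, one_mul]
  have hone : (1 : Fk) - algebraMap k Fk 1 ∈ Q.toValuationSubring.nonunits := by
    rw [map_one, sub_self, ValuationSubring.mem_nonunits_iff, map_zero]
    exact zero_lt_one
  refine exists_isLift_of_isGaussLift (V := V) ⟨fun a => ?_, fun c => ?_, fun ω hω => ?_⟩
  · rw [← hψ1 a]
    exact h1 a
  · obtain ⟨hmem, -⟩ := h2 1 Q.toValuationSubring.one_mem 1 hone c
    rwa [hψt, map_one, mul_one] at hmem
  · obtain ⟨a, ha, hm, hi⟩ := h4 ω hω
    rw [hψ1 a] at hm hi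
    exact ⟨a, ha, hm, hi⟩

include hφ hgen hcompat in
/-- **(G2)** for a function field in one variable over an algebraically closed field. -/
theorem exists_isLift [IsAlgClosed k] (x₀ : Fk)
    [Algebra.IsAlgebraic (IntermediateField.adjoin k {x₀}) Fk] (Q : Place k Fk) :
    ∃ P : Place L FL, IsLift i₂ Q P :=
  exists_isLift_of_residue i₂ φ hφ hgen hcompat Q fun _ ha =>
    H94.exists_sub_mem_nonunits Q.toValuationSubring Q.algebraMap_mem' Q.ne_top' x₀
      (H94.isAlgebraic_adjoin x₀) ha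

end Exists

end Fermat.Agent.S42.H72
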