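/-
Program A (S42 / S29), descent route DESC, leaf (LIFT) (helper72).

`k ⊆ L` algebraically closed fields of characteristic zero, `Fk / k` a function field in one
variable, `FL / L` a field generated by `L` and the image of `i : Fk → FL`, such that every place
of `Fk / k` has a lift to `FL / L` (leaf (G2), `Lift.lean`).

* `finrank_adjoin_le`          : `[FL : L(i x)] ≤ [Fk : k(x)]` (a `k(x)`-basis of `Fk` spans).
* `transcendental_map`         : `i x` is transcendental over `L` if `x` is over `k`.
* `exists_eq_lift_of_ord_pos`  : for ANY choice `G` of lifts, every zero of `i x` is a `G Q`.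
* `exists_isLift_of_ord_ne_zero`: **(LIFT)** a place of `FL / L` at which some `i f` has nonzero
                                  order is a lift.
* `isLift_unique`              : the lift of a place is unique.
-/
import Mathlib
import Fermat.Agent.S42.H72.Lift
import Fermat.Agent.S18.H42.Fibres
import Fermat.Agent.S18.H38.Exports
import Fermat.Agent.S29.H9.ConstBasis

set_option autoImplicit false
set_option linter.unusedSectionVars false

open TensorProduct AlgebraicCurve IntermediateField

noncomputable section

namespace Fermat.Agent.S42.H72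

open Fermat.Agent.S24 Fermat.Agent.S29.H9

variable {k L Fk FL : Type*} [Field k] [Field L] [Field Fk] [Field FL] [Algebra k L]
  [Algebra k Fk] [Algebra L FL]

section Compat

variable (i₂ : Fk →+* FL) (φ : L ⊗[k] Fk →+* FL)
  (hgen : ∀ ω : FL, ∃ s t : L ⊗[k] Fk, φ s ≠ 0 ∧ ω * φ s = φ t)
  (hcompat : ∀ (a : L) (e : Fk), φ (a ⊗ₜ[k] e) = algebraMap L FL a * i₂ e)

include hcompat in
/-- `i₂` is compatible with the constants. -/
theorem map_algebraMap_of_compat (a : k) :
    i₂ (algebraMap k Fk a) = algebraMap L FL (algebraMap k L a) := by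
  have h1 := hcompat 1 (algebraMap k Fk a)
  have h2 := hcompat (algebraMap k L a) 1
  have h3 : (1 : L) ⊗ₜ[k] (algebraMap k Fk a) = (algebraMap k L a) ⊗ₜ[k] (1 : Fk) := by
    rw [Algebra.algebraMap_eq_smul_one, Algebra.algebraMap_eq_smul_one, TensorProduct.tmul_smul,
      TensorProduct.smul_tmul']
  rw [h3, h2, map_one, mul_one, map_one, one_mul] at h1
  exact h1.symm

include hgen hcompat in
/-- `FL` is generated by `L` and the image of `Fk`. -/
theorem adjoin_range_eq_top_of_compat : IntermediateField.adjoin L (Set.range i₂) = ⊤ := by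
  rw [eq_top_iff]
  intro ω _
  have hmem : ∀ t : L ⊗[k] Fk, φ t ∈ IntermediateField.adjoin L (Set.range i₂) := by
    intro t
    induction t using TensorProduct.induction_on with
    | zero => rw [map_zero]; exact zero_mem _
    | tmul a e =>
      rw [hcompat]
      exact mul_mem (IntermediateField.algebraMap_mem _ a)
        (IntermediateField.subset_adjoin L _ ⟨e, rfl⟩)
    | add x y hx hy => rw [map_add]; exact add_mem hx hy
  obtain ⟨s, t, hs, hst⟩ := hgen ω
  have hω : ω = φ t / φ s := by rw [← hst, mul_div_cancel_right₀ _ hs]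
  rw [hω]
  exact div_mem (hmem t) (hmem s)

end Compat

section Degree

variable (i : Fk →+* FL)
  (hi : ∀ a : k, i (algebraMap k Fk a) = algebraMap L FL (algebraMap k L a))
  (htop : IntermediateField.adjoin L (Set.range i) = ⊤)

include hi htop in
/-- A `k(x)`-basis of `Fk` spans `FL` over `L(i x)`. -/
theorem finrank_adjoin_le (x : Fk) [FiniteDimensional k⟮x⟯ Fk] :
    FiniteDimensional L⟮i x⟯ FL ∧ Module.finrank L⟮i x⟯ FL ≤ Module.finrank k⟮x⟯ Fk := by
  classical
  set b := Module.finBasis k⟮x⟯ Fk with hb
  set V : Submodule L⟮i x⟯ FL := Submodule.span L⟮i x⟯ (Set.range fun j => i (b j)) with hV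
  have : FiniteDimensional L⟮i x⟯ V := FiniteDimensional.span_of_finite _ (Set.finite_range _)
  have hA : ∀ f : Fk, i f ∈ V := by
    intro f
    rw [map_eq_sum_smul i hi x b f]
    exact Submodule.sum_mem _ fun j _ =>
      Submodule.smul_mem _ _ (Submodule.subset_span ⟨j, rfl⟩)
  have hmul : ∀ v ∈ V, ∀ w ∈ V, v * w ∈ V := by
    intro v hv w hw
    induction hv using Submodule.span_induction with
    | mem v hv =>
      obtain ⟨j, rfl⟩ := hv
      induction hw using Submodule.span_induction with
      | mem w hw =>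
        obtain ⟨l, rfl⟩ := hw
        simp only
        rw [← map_mul]
        exact hA _
      | zero => simp
      | add w₁ w₂ _ _ h₁ h₂ =>
        rw [mul_add]
        exact add_mem h₁ h₂
      | smul r w _ h =>
        rw [mul_smul_comm]
        exact Submodule.smul_mem _ _ h
    | zero => simp
    | add v₁ v₂ _ _ h₁ h₂ =>
      rw [add_mul]
      exact add_mem h₁ h₂
    | smul r v _ h =>
      rw [smul_mul_assoc]
      exact Submodule.smul_mem _ _ h
  have h1 : (1 : FL) ∈ V := by
    have := hA 1
    rwa [map_one] at this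
  have hinv : ∀ v ∈ V, v⁻¹ ∈ V := by
    intro v hv
    by_cases hv0 : v = 0
    · subst hv0
      simp
    · let μ : V →ₗ[L⟮i x⟯] V :=
        { toFun := fun w => ⟨v * w, hmul v hv w w.2⟩
          map_add' := fun w₁ w₂ => Subtype.ext (by simp [mul_add])
          map_smul' := fun r w => Subtype.ext (by simp) }
      have hinj : Function.Injective μ := by
        intro w₁ w₂ h
        have h' : v * (w₁ : FL) = v * (w₂ : FL) := congrArg Subtype.val h
        exact Subtype.ext (mul_left_cancel₀ hv0 h')
      obtain ⟨w, hw⟩ := LinearMap.surjective_of_injective hinj ⟨1, h1⟩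
      have hw' : v * (w : FL) = 1 := congrArg Subtype.val hw
      have : v⁻¹ = (w : FL) := inv_eq_of_mul_eq_one_right hw'
      rw [this]
      exact w.2
  have hVtop : V = ⊤ := by
    rw [eq_top_iff]
    intro z _
    have hz : z ∈ IntermediateField.adjoin L (Set.range i) := by
      rw [htop]
      trivial
    induction hz using IntermediateField.adjoin_induction with
    | mem z hz =>
      obtain ⟨f, rfl⟩ := hz
      exact hA f
    | algebraMap a =>
      have : algebraMap L FL a = (algebraMap L L⟮i x⟯ a) • (1 : FL) := by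
        rw [Algebra.smul_def, mul_one]
        rfl
      rw [this]
      exact Submodule.smul_mem _ _ h1
    | add a b _ _ ha hb => exact add_mem (ha trivial) (hb trivial)
    | inv a _ ha => exact hinv a (ha trivial)
    | mul a b _ _ ha hb => exact hmul a (ha trivial) b (hb trivial)
  have hfin : FiniteDimensional L⟮i x⟯ FL := by
    have hfg : (⊤ : Submodule L⟮i x⟯ FL).FG := by
      rw [← hVtop, hV]
      exact Submodule.fg_span (Set.finite_range _)
    exact Module.finite_def.mpr hfg
  refine ⟨hfin, ?_⟩
  have h := finrank_range_le_card (R := L⟮i x⟯) (fun j => i (b j))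
  rw [Set.finrank, ← hV, hVtop, finrank_top, Fintype.card_fin] at h
  exact h

end Degree

section Count

variable [IsAlgClosed k] [CharZero k] [IsAlgClosed L] (i : Fk →+* FL)
  (hi : ∀ a : k, i (algebraMap k Fk a) = algebraMap L FL (algebraMap k L a))
  (htop : IntermediateField.adjoin L (Set.range i) = ⊤)

include hi in
/-- An element of `Fk` whose image has nonzero order at a place of `FL / L` is transcendental
over `k`. -/
theorem transcendental_of_ord_map_ne_zero (P : Place L FL) {x : Fk} (hP : P.ord (i x) ≠ 0) :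
    Transcendental k x := by
  by_contra hx
  have halg : IsAlgebraic k x := by
    by_contra h
    exact hx h
  have hdeg := IsAlgClosed.degree_eq_one_of_irreducible k (minpoly.irreducible halg.isIntegral)
  obtain ⟨a, rfl⟩ := minpoly.mem_range_of_degree_eq_one k x hdeg
  rw [hi] at hP
  exact hP (Fermat.Agent.S18.H38.ord_const P _)

include hi in
/-- `i x` is transcendental over `L` as soon as it has a zero. -/
theorem transcendental_map_of_ord_pos (P : Place L FL) {x : Fk} (hP : 0 < P.ord (i x)) :
    Transcendental L (i x) := by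
  by_contra hx
  have halg : IsAlgebraic L (i x) := by
    by_contra h
    exact hx h
  have hdeg := IsAlgClosed.degree_eq_one_of_irreducible L (minpoly.irreducible halg.isIntegral)
  obtain ⟨a, ha⟩ := minpoly.mem_range_of_degree_eq_one L (i x) hdeg
  rw [← ha, Fermat.Agent.S18.H38.ord_const P a] at hP
  exact lt_irrefl _ hP

include hi htop in
/-- For any choice `G` of lifts, every zero of `i x` is of the form `G Q`. -/
theorem exists_eq_lift_of_ord_pos (G : Place k Fk → Place L FL) (hG : ∀ Q, IsLift i Q (G Q))
    (x : Fk) [FiniteDimensional k⟮x⟯ Fk] (P : Place L FL) (hP : 0 < P.ord (i x)) :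
    ∃ Q : Place k Fk, G Q = P := by
  classical
  have hx : Transcendental k x := transcendental_of_ord_map_ne_zero i hi P hP.ne'
  have hxL : Transcendental L (i x) := transcendental_map_of_ord_pos i hi P hP
  obtain ⟨hfd, hle⟩ := finrank_adjoin_le i hi htop x
  have := hfd
  have : CharZero L := charZero_of_injective_algebraMap (algebraMap k L).injective
  have hsk := Fermat.Agent.S18.H42.sum_ord_over_toFinset x hx 0
  have hsL := Fermat.Agent.S18.H42.sum_ord_over_toFinset (i x) hxL 0
  set sk := (Fermat.Agent.S18.H42.finite_over x hx 0).toFinset with hskdef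
  set sL := (Fermat.Agent.S18.H42.finite_over (i x) hxL 0).toFinset with hsLdef
  simp only [map_zero, sub_zero] at hsk hsL
  have hmemk : ∀ Q : Place k Fk, Q ∈ sk ↔ 0 < Q.ord x := by
    intro Q
    simp [hskdef]
  have hmemL : ∀ P' : Place L FL, P' ∈ sL ↔ 0 < P'.ord (i x) := by
    intro P'
    simp [hsLdef]
  have hGinj : Function.Injective G := fun Q Q' h =>
    isLift_injective i (hG Q) (h ▸ hG Q')
  have himg : sk.image G ⊆ sL := by
    intro P' hP'
    obtain ⟨Q, hQ, rfl⟩ := Finset.mem_image.mp hP'
    rw [hmemL, hG Q x]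
    exact (hmemk Q).mp hQ
  have hsumimg : ∑ P' ∈ sk.image G, P'.ord (i x) = (Module.finrank k⟮x⟯ Fk : ℤ) := by
    rw [Finset.sum_image (fun Q _ Q' _ h => hGinj h), ← hsk]
    exact Finset.sum_congr rfl fun Q _ => hG Q x
  have hsplit := Finset.sum_sdiff (f := fun P' : Place L FL => P'.ord (i x)) himg
  rw [hsumimg, hsL] at hsplit
  have hle' : (Module.finrank L⟮i x⟯ FL : ℤ) ≤ (Module.finrank k⟮x⟯ Fk : ℤ) := by
    exact_mod_cast hle
  by_contra hcon
  push Not at hcon
  have hPmem : P ∈ sL \ sk.image G := by
    rw [Finset.mem_sdiff, hmemL]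
    refine ⟨hP, fun h => ?_⟩
    obtain ⟨Q, -, hQ⟩ := Finset.mem_image.mp h
    exact hcon Q hQ
  have hge : P.ord (i x) ≤ ∑ P' ∈ sL \ sk.image G, P'.ord (i x) :=
    Finset.single_le_sum (f := fun P' : Place L FL => P'.ord (i x))
      (fun P' hP' => ((hmemL P').mp (Finset.mem_sdiff.mp hP').1).le) hPmem
  omega

include hi htop in
/-- **(LIFT)**: a place of `FL / L` at which the image of some element of `Fk` has nonzero order
is a lift of a place of `Fk / k`. -/
theorem exists_isLift_of_ord_ne_zero (hlift : ∀ Q : Place k Fk, ∃ P : Place L FL, IsLift i Q P)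
    (x₀ : Fk) [FiniteDimensional k⟮x₀⟯ Fk] (P : Place L FL) (f : Fk) (hP : P.ord (i f) ≠ 0) :
    ∃ Q : Place k Fk, IsLift i Q P := by
  choose G hG using hlift
  have key : ∀ x : Fk, 0 < P.ord (i x) → ∃ Q : Place k Fk, IsLift i Q P := by
    intro x hx
    have hxt : Transcendental k x := transcendental_of_ord_map_ne_zero i hi P hx.ne'
    have := Fermat.Agent.S18.H38.finiteDimensional_adjoin_of_transcendental x₀ hxt
    obtain ⟨Q, hQ⟩ := exists_eq_lift_of_ord_pos i hi htop G hG x P hx
    exact ⟨Q, hQ ▸ hG Q⟩
  rcases lt_or_gt_of_ne hP with hneg | hpos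
  · refine key f⁻¹ ?_
    rw [map_inv₀, P.ord_inv]
    omega
  · exact key f hpos

include hi htop in
/-- The lift of a place is unique. -/
theorem isLift_unique (hlift : ∀ Q : Place k Fk, ∃ P : Place L FL, IsLift i Q P)
    (x₀ : Fk) [FiniteDimensional k⟮x₀⟯ Fk] {Q : Place k Fk} {P P' : Place L FL}
    (h : IsLift i Q P) (h' : IsLift i Q P') : P = P' := by
  classical
  choose G hG using hlift
  set G' : Place k Fk → Place L FL := Function.update G Q P' with hG'def
  have hG' : ∀ Q₁, IsLift i Q₁ (G' Q₁) := by
    intro Q₁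
    by_cases hQ : Q₁ = Q
    · subst hQ
      rw [hG'def, Function.update_self]
      exact h'
    · rw [hG'def, Function.update_of_ne hQ]
      exact hG Q₁
  obtain ⟨t, ht⟩ := exists_ord_eq_one Q
  have hPt : 0 < P.ord (i t) := by
    rw [h t, ht]
    exact one_pos
  have htt : Transcendental k t := transcendental_of_ord_map_ne_zero i hi P hPt.ne'
  have := Fermat.Agent.S18.H38.finiteDimensional_adjoin_of_transcendental x₀ htt
  obtain ⟨Q₁, hQ₁⟩ := exists_eq_lift_of_ord_pos i hi htop G' hG' t P hPt
  have hQQ : Q₁ = Q := isLift_injective i (hQ₁ ▸ hG' Q₁) h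
  rw [← hQ₁, hQQ, hG'def, Function.update_self]

end Count

section Packaged

variable [IsAlgClosed k] [CharZero k] [IsAlgClosed L]
  (i₂ : Fk →+* FL) (φ : L ⊗[k] Fk →+* FL) (hφ : Function.Injective φ)
  (hgen : ∀ ω : FL, ∃ s t : L ⊗[k] Fk, φ s ≠ 0 ∧ ω * φ s = φ t)
  (hcompat : ∀ (a : L) (e : Fk), φ (a ⊗ₜ[k] e) = algebraMap L FL a * i₂ e)

include hφ hgen hcompat in
/-- **(LIFT)** in the vocabulary of `exists_gauss_const`: a place of `FL / L` at which the image
of some element of `Fk` has nonzero order is the lift of a place of `Fk / k`. -/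
theorem exists_isLift_of_ord_ne_zero_compat (x₀ : Fk) [FiniteDimensional k⟮x₀⟯ Fk]
    (P : Place L FL) (f : Fk) (hP : P.ord (i₂ f) ≠ 0) :
    ∃ Q : Place k Fk, IsLift i₂ Q P :=
  exists_isLift_of_ord_ne_zero i₂ (map_algebraMap_of_compat i₂ φ hcompat)
    (adjoin_range_eq_top_of_compat i₂ φ hgen hcompat)
    (fun Q => exists_isLift i₂ φ hφ hgen hcompat x₀ Q) x₀ P f hP

include hφ hgen hcompat in
/-- Uniqueness of the lift, in the vocabulary of `exists_gauss_const`. -/
theorem isLift_unique_compat (x₀ : Fk) [FiniteDimensional k⟮x₀⟯ Fk]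
    {Q : Place k Fk} {P P' : Place L FL}
    (h : IsLift i₂ Q P) (h' : IsLift i₂ Q P') : P = P' :=
  isLift_unique i₂ (map_algebraMap_of_compat i₂ φ hcompat)
    (adjoin_range_eq_top_of_compat i₂ φ hgen hcompat)
    (fun Q => exists_isLift i₂ φ hφ hgen hcompat x₀ Q) x₀ h h'

end Packaged

end Fermat.Agent.S42.H72
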