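import Mathlib

set_option autoImplicit false

open scoped Cardinal
open Polynomial

noncomputable section

namespace Fermat.Agent.S42.H72

section Core

variable {k : Type*} [Field k] {L : Type*} [Field L] [Algebra (LaurentSeries k) L]

/-- Every nonzero Laurent series is `X ^ m` times a unit power series. -/
theorem exists_single_mul_unit (x : LaurentSeries k) (hx : x ≠ 0) :
    ∃ (m : ℤ) (a : PowerSeries k), IsUnit a ∧
      x = HahnSeries.single m (1 : k) * HahnSeries.ofPowerSeries ℤ k a := by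
  refine ⟨x.order, x.powerSeriesPart, ?_, (LaurentSeries.single_order_mul_powerSeriesPart x).symm⟩
  rw [PowerSeries.isUnit_iff_constantCoeff, isUnit_iff_ne_zero,
    ← PowerSeries.coeff_zero_eq_constantCoeff_apply, LaurentSeries.powerSeriesPart_coeff]
  simpa using (not_congr HahnSeries.coeff_order_eq_zero).mpr hx

theorem single_eq_zpow (m : ℤ) :
    (HahnSeries.single m (1 : k) : LaurentSeries k) = (HahnSeries.single 1 (1 : k)) ^ m := by
  have hnat : ∀ n : ℕ, (HahnSeries.single (n : ℤ) (1 : k) : LaurentSeries k)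
      = (HahnSeries.single 1 (1 : k)) ^ n := by
    intro n
    rw [HahnSeries.single_pow, one_pow]
    simp
  rcases Int.eq_nat_or_neg m with ⟨n, rfl | rfl⟩
  · rw [hnat, zpow_natCast]
  · rw [zpow_neg, zpow_natCast, ← hnat]
    refine eq_inv_of_mul_eq_one_left ?_
    rw [HahnSeries.single_mul_single]
    simp

variable (B : ValuationSubring L)

/-- The image of the variable. -/
abbrev sVar (k : Type*) [Field k] (L : Type*) [Field L] [Algebra (LaurentSeries k) L] : L :=
  algebraMap (LaurentSeries k) L (HahnSeries.single 1 (1 : k))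

theorem sVar_ne_zero : sVar k L ≠ 0 := by
  refine (_root_.map_ne_zero _).mpr ?_
  intro h
  have := congrArg (fun z : LaurentSeries k => z.coeff 1) h
  simp at this

theorem valuation_unit_powerSeries
    (hB : ∀ a : PowerSeries k, algebraMap (LaurentSeries k) L (HahnSeries.ofPowerSeries ℤ k a) ∈ B)
    (a : PowerSeries k) (ha : IsUnit a) :
    B.valuation (algebraMap (LaurentSeries k) L (HahnSeries.ofPowerSeries ℤ k a)) = 1 := by
  obtain ⟨b, hb⟩ := isUnit_iff_exists_inv.mp ha
  have h1 := (B.valuation_le_one_iff _).mpr (hB a)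
  have h2 := (B.valuation_le_one_iff _).mpr (hB b)
  have hmul : B.valuation (algebraMap (LaurentSeries k) L (HahnSeries.ofPowerSeries ℤ k a)) *
      B.valuation (algebraMap (LaurentSeries k) L (HahnSeries.ofPowerSeries ℤ k b)) = 1 := by
    rw [← map_mul, ← map_mul, ← map_mul, hb, map_one, map_one, map_one]
  refine le_antisymm h1 ?_
  calc (1 : B.ValueGroup) = _ := hmul.symm
    _ ≤ B.valuation (algebraMap (LaurentSeries k) L (HahnSeries.ofPowerSeries ℤ k a)) * 1 :=
        mul_le_mul_right h2 _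
    _ = _ := mul_one _

theorem valuation_single_mul
    (hB : ∀ a : PowerSeries k, algebraMap (LaurentSeries k) L (HahnSeries.ofPowerSeries ℤ k a) ∈ B)
    (m : ℤ) (a : PowerSeries k) (ha : IsUnit a) :
    B.valuation (algebraMap (LaurentSeries k) L
      (HahnSeries.single m (1 : k) * HahnSeries.ofPowerSeries ℤ k a)) =
      B.valuation (sVar k L) ^ m := by
  rw [map_mul, map_mul, valuation_unit_powerSeries B hB a ha, mul_one, single_eq_zpow, map_zpow₀,
    map_zpow₀]

theorem valuation_algebraMap_eq_zpow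
    (hB : ∀ a : PowerSeries k, algebraMap (LaurentSeries k) L (HahnSeries.ofPowerSeries ℤ k a) ∈ B)
    (x : LaurentSeries k) (hx : x ≠ 0) :
    ∃ m : ℤ, B.valuation (algebraMap (LaurentSeries k) L x) = B.valuation (sVar k L) ^ m := by
  obtain ⟨m, a, ha, rfl⟩ := exists_single_mul_unit x hx
  exact ⟨m, valuation_single_mul B hB m a ha⟩

/-- A Laurent series whose image is integral for `B` is a power series. -/
theorem exists_ofPowerSeries_of_mem
    (hB : ∀ a : PowerSeries k, algebraMap (LaurentSeries k) L (HahnSeries.ofPowerSeries ℤ k a) ∈ B)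
    (hX : sVar k L ∈ B.nonunits)
    (x : LaurentSeries k) (hx : algebraMap (LaurentSeries k) L x ∈ B) :
    ∃ a : PowerSeries k, x = HahnSeries.ofPowerSeries ℤ k a := by
  by_cases hx0 : x = 0
  · exact ⟨0, by simp [hx0]⟩
  obtain ⟨m, a, ha, rfl⟩ := exists_single_mul_unit x hx0
  have hv := valuation_single_mul B hB m a ha
  have hle := (B.valuation_le_one_iff _).mpr hx
  rw [hv] at hle
  have hs1 : B.valuation (sVar k L) < 1 := B.mem_nonunits_iff.mp hX
  have hs0 : B.valuation (sVar k L) ≠ 0 := (Valuation.ne_zero_iff _).mpr sVar_ne_zero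
  have hm : 0 ≤ m := by
    by_contra hneg
    push Not at hneg
    have h1 : 1 < B.valuation (sVar k L) ^ m :=
      one_lt_zpow_of_neg₀ (zero_lt_iff.mpr hs0) hs1 hneg
    exact absurd hle (not_le.mpr h1)
  obtain ⟨n, rfl⟩ := Int.eq_ofNat_of_zero_le hm
  refine ⟨PowerSeries.X ^ n * a, ?_⟩
  rw [map_mul, HahnSeries.ofPowerSeries_X_pow]

/-- The value group of `B` is torsion over the group generated by the value of the variable. -/
theorem exists_pow_eq_zpow [Algebra.IsAlgebraic (LaurentSeries k) L]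
    (hB : ∀ a : PowerSeries k, algebraMap (LaurentSeries k) L (HahnSeries.ofPowerSeries ℤ k a) ∈ B)
    (y : L) (hy : y ≠ 0) :
    ∃ n : ℕ, 0 < n ∧ ∃ m : ℤ, B.valuation y ^ n = B.valuation (sVar k L) ^ m := by
  classical
  obtain ⟨P, hP0, hPy⟩ := Algebra.IsAlgebraic.isAlgebraic (R := LaurentSeries k) y
  set v := B.valuation with hv
  set f : ℕ → L := fun i => algebraMap (LaurentSeries k) L (P.coeff i) * y ^ i with hf
  have hsum : ∑ i ∈ P.support, f i = 0 := by
    rw [← hPy, Polynomial.aeval_def, Polynomial.eval₂_eq_sum, Polynomial.sum_def]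
  have hfne : ∀ i ∈ P.support, v (f i) ≠ 0 := by
    intro i hi
    rw [hf, Valuation.ne_zero_iff]
    exact mul_ne_zero ((_root_.map_ne_zero _).mpr (Polynomial.mem_support_iff.mp hi)) (pow_ne_zero _ hy)
  have hne : P.support.Nonempty := Polynomial.support_nonempty.mpr hP0
  obtain ⟨i0, hi0, hmax⟩ := Finset.exists_max_image P.support (fun i => v (f i)) hne
  -- a second index with the same value
  have hex : ∃ j ∈ P.support, j ≠ i0 ∧ v (f j) = v (f i0) := by
    by_contra hcon
    push Not at hcon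
    have hlt : ∀ j ∈ P.support.erase i0, v (f j) < v (f i0) := by
      intro j hj
      have hj' := Finset.mem_erase.mp hj
      exact lt_of_le_of_ne (hmax j hj'.2) (hcon j hj'.2 hj'.1)
    have h1 : v (∑ j ∈ P.support.erase i0, f j) < v (f i0) :=
      Valuation.map_sum_lt v (hfne i0 hi0) hlt
    have h2 : ∑ j ∈ P.support.erase i0, f j = - f i0 := by
      rw [eq_neg_iff_add_eq_zero, Finset.sum_erase_add _ _ hi0, hsum]
    rw [h2, Valuation.map_neg] at h1
    exact lt_irrefl _ h1
  obtain ⟨j, hj, hji, hjv⟩ := hex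
  -- values of the coefficients
  obtain ⟨mi, hmi⟩ := valuation_algebraMap_eq_zpow B hB (P.coeff i0) (Polynomial.mem_support_iff.mp hi0)
  obtain ⟨mj, hmj⟩ := valuation_algebraMap_eq_zpow B hB (P.coeff j) (Polynomial.mem_support_iff.mp hj)
  have hvy : v y ≠ 0 := (Valuation.ne_zero_iff _).mpr hy
  have hs0 : v (sVar k L) ≠ 0 := (Valuation.ne_zero_iff _).mpr sVar_ne_zero
  have hrel : v (sVar k L) ^ mj * v y ^ j = v (sVar k L) ^ mi * v y ^ i0 := by
    have := hjv
    simp only [hf, map_mul, map_pow] at this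
    rw [← hv] at hmi hmj
    rw [hmi, hmj] at this
    exact this
  -- general: from `s^a * y^c = s^b * y^d` with `d < c` get `y^(c-d) = s^(b-a)`
  have key : ∀ (a b : ℤ) (c d : ℕ), d < c →
      v (sVar k L) ^ a * v y ^ c = v (sVar k L) ^ b * v y ^ d →
      ∃ n : ℕ, 0 < n ∧ ∃ m : ℤ, v y ^ n = v (sVar k L) ^ m := by
    intro a b c d hdc h
    refine ⟨c - d, Nat.sub_pos_of_lt hdc, b - a, ?_⟩
    have hc : c = (c - d) + d := (Nat.sub_add_cancel hdc.le).symm
    rw [hc, pow_add, ← mul_assoc] at h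
    have h' := mul_right_cancel₀ (pow_ne_zero d hvy) h
    rw [zpow_sub₀ hs0, ← h', mul_comm, mul_div_assoc, div_self (zpow_ne_zero _ hs0), mul_one]
  rcases lt_or_gt_of_ne hji with hlt | hgt
  · exact key mi mj i0 j hlt hrel.symm
  · exact key mj mi j i0 hgt hrel

/-- `B` has rank one in the form used downstream. -/
theorem harch_of_core [Algebra.IsAlgebraic (LaurentSeries k) L]
    (hB : ∀ a : PowerSeries k, algebraMap (LaurentSeries k) L (HahnSeries.ofPowerSeries ℤ k a) ∈ B)
    (hX : sVar k L ∈ B.nonunits) (a c : L) (ha : a ∈ B.nonunits) (hc : c ≠ 0) :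
    ∃ n : ℕ, a ^ n * c⁻¹ ∈ B := by
  by_cases ha0 : a = 0
  · exact ⟨1, by simp [ha0, B.zero_mem]⟩
  obtain ⟨n1, hn1, m1, h1⟩ := exists_pow_eq_zpow B hB a ha0
  obtain ⟨n2, hn2, m2, h2⟩ := exists_pow_eq_zpow B hB c hc
  have hs1 : B.valuation (sVar k L) < 1 := B.mem_nonunits_iff.mp hX
  have hs0 : B.valuation (sVar k L) ≠ 0 := (Valuation.ne_zero_iff _).mpr sVar_ne_zero
  have hspos : 0 < B.valuation (sVar k L) := zero_lt_iff.mpr hs0
  have ha1 : B.valuation a < 1 := B.mem_nonunits_iff.mp ha
  have hvc : B.valuation c ≠ 0 := (Valuation.ne_zero_iff _).mpr hc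
  have hm1 : 0 < m1 := by
    by_contra hneg
    push Not at hneg
    have hge : 1 ≤ B.valuation (sVar k L) ^ m1 :=
      one_le_zpow_of_nonpos₀ hspos hs1.le hneg
    have hlt : B.valuation a ^ n1 < 1 := pow_lt_one₀ zero_le ha1 hn1.ne'
    rw [h1] at hlt
    exact absurd hge (not_le.mpr hlt)
  refine ⟨(m2 * n1).toNat, ?_⟩
  rw [← B.valuation_le_one_iff, map_mul, map_inv₀, map_pow]
  have hkey : (B.valuation a ^ (m2 * n1).toNat) ^ (n1 * n2) ≤ (B.valuation c) ^ (n1 * n2) := by
    have e1 : (B.valuation a ^ (m2 * n1).toNat) ^ (n1 * n2)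
        = B.valuation (sVar k L) ^ (m1 * ((m2 * n1).toNat * n2 : ℕ)) := by
      rw [zpow_mul, ← h1, zpow_natCast, ← pow_mul, ← pow_mul]
      congr 1
      ring
    have e2 : (B.valuation c) ^ (n1 * n2) = B.valuation (sVar k L) ^ (m2 * n1) := by
      rw [mul_comm n1 n2, pow_mul, h2, zpow_mul, zpow_natCast]
    rw [e1, e2]
    refine zpow_le_zpow_right_of_le_one₀ hspos hs1.le ?_
    have hN : m2 * (n1 : ℤ) ≤ ((m2 * n1).toNat : ℤ) := Int.self_le_toNat _
    have hn2' : (1 : ℤ) ≤ n2 := by exact_mod_cast hn2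
    have hN0 : (0 : ℤ) ≤ ((m2 * n1).toNat : ℤ) := Int.natCast_nonneg _
    push_cast
    nlinarith [mul_le_mul hm1 hn2' (by norm_num) (by linarith : (0:ℤ) ≤ m1)]
  have hle : B.valuation a ^ (m2 * n1).toNat ≤ B.valuation c :=
    (pow_le_pow_iff_left₀ zero_le zero_le (Nat.mul_ne_zero hn1.ne' hn2.ne')).mp hkey
  calc B.valuation a ^ (m2 * n1).toNat * (B.valuation c)⁻¹
      ≤ B.valuation c * (B.valuation c)⁻¹ := mul_le_mul_left hle _
    _ = 1 := mul_inv_cancel₀ hvc

end Core

section Split

/-- Evaluation of a polynomial over an algebraically closed field through a ring map. -/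
theorem eval₂_eq_prod_roots_of_isAlgClosed {k M : Type*} [Field k] [IsAlgClosed k] [CommRing M]
    (ψ : k →+* M) (z : M) (Q : k[X]) :
    Q.eval₂ ψ z = ψ Q.leadingCoeff * (Q.roots.map (fun r => z - ψ r)).prod := by
  conv_lhs => rw [(IsAlgClosed.splits Q).eq_prod_roots]
  rw [eval₂_mul, eval₂_C, eval₂_multiset_prod, Multiset.map_map]
  congr 2
  refine Multiset.map_congr rfl fun r _ => ?_
  simp

/-- An element algebraic over the prime field which lies in a field receiving an algebraically
closed field lies in the image of the latter. -/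
theorem exists_map_eq_of_isAlgebraic {k₁ k₂ M : Type*} [Field k₁] [Algebra ℚ k₁]
    [Algebra.IsAlgebraic ℚ k₁] [Field k₂] [CharZero k₂] [IsAlgClosed k₂] [Field M]
    (g₁ : k₁ →+* M) (g₂ : k₂ →+* M) (c : k₁) : ∃ c' : k₂, g₂ c' = g₁ c := by
  obtain ⟨P, hP0, hPc⟩ := Algebra.IsAlgebraic.isAlgebraic (R := ℚ) c
  set Q : k₂[X] := P.map (algebraMap ℚ k₂) with hQ
  have hQ0 : Q ≠ 0 := (Polynomial.map_ne_zero_iff (algebraMap ℚ k₂).injective).mpr hP0
  have hev : Q.eval₂ g₂ (g₁ c) = 0 := by
    rw [hQ, eval₂_map]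
    have hh : g₂.comp (algebraMap ℚ k₂) = g₁.comp (algebraMap ℚ k₁) := RingHom.ext_rat _ _
    rw [hh, ← hom_eval₂, ← aeval_def, hPc, map_zero]
  rw [eval₂_eq_prod_roots_of_isAlgClosed] at hev
  rcases mul_eq_zero.mp hev with h | h
  · exact absurd h ((_root_.map_ne_zero g₂).mpr (leadingCoeff_ne_zero.mpr hQ0))
  · have hx : (0 : M) ∈ Q.roots.map (fun r => g₁ c - g₂ r) := Multiset.prod_eq_zero_iff.mp h
    obtain ⟨r, _, hr⟩ := Multiset.mem_map.mp hx
    exact ⟨r, (sub_eq_zero.mp hr).symm⟩

end Split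

section Residue

variable {k : Type*} [Field k] {L : Type*} [Field L] [Algebra (LaurentSeries k) L]
variable (B : ValuationSubring L)

/-- The residue field of `B` is `k`. -/
theorem residue_of_core [IsAlgClosed k] [Algebra.IsAlgebraic (LaurentSeries k) L]
    (hB : ∀ a : PowerSeries k, algebraMap (LaurentSeries k) L (HahnSeries.ofPowerSeries ℤ k a) ∈ B)
    (hX : sVar k L ∈ B.nonunits) (y : L) (hy : y ∈ B) :
    ∃ c : k, y - algebraMap (LaurentSeries k) L
      (HahnSeries.ofPowerSeries ℤ k (PowerSeries.C c)) ∈ B.nonunits := by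
  classical
  obtain ⟨P, hP0, hPy⟩ := Algebra.IsAlgebraic.isAlgebraic (R := LaurentSeries k) y
  set v := B.valuation with hv
  set φ := algebraMap (LaurentSeries k) L with hφ
  have hne : P.support.Nonempty := Polynomial.support_nonempty.mpr hP0
  obtain ⟨i1, hi1, hmax⟩ := Finset.exists_max_image P.support (fun i => v (φ (P.coeff i))) hne
  have hc1 : P.coeff i1 ≠ 0 := Polynomial.mem_support_iff.mp hi1
  have hvc1 : v (φ (P.coeff i1)) ≠ 0 := (Valuation.ne_zero_iff _).mpr ((_root_.map_ne_zero _).mpr hc1)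
  -- normalised coefficients are power series
  have hb : ∀ i, ∃ β : PowerSeries k,
      P.coeff i / P.coeff i1 = HahnSeries.ofPowerSeries ℤ k β := by
    intro i
    apply exists_ofPowerSeries_of_mem B hB hX
    rw [← B.valuation_le_one_iff, map_div₀, map_div₀]
    by_cases hi : i ∈ P.support
    · exact div_le_one_of_le₀ (hmax i hi) zero_le
    · rw [Polynomial.notMem_support_iff.mp hi]
      simp
  choose β hβ using hb
  have hβ1 : β i1 = 1 := by
    apply HahnSeries.ofPowerSeries_injective (Γ := ℤ)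
    rw [← hβ, div_self hc1, map_one]
  set ψ : k →+* L := φ.comp ((HahnSeries.ofPowerSeries ℤ k).comp (PowerSeries.C (R := k))) with hψ
  set Q : k[X] := ∑ i ∈ P.support, Polynomial.monomial i (PowerSeries.constantCoeff (β i)) with hQ
  have hQ0 : Q ≠ 0 := by
    intro h
    have h1 : Q.coeff i1 = 1 := by
      rw [hQ, Polynomial.finsetSum_coeff]
      simp only [Polynomial.coeff_monomial]
      rw [Finset.sum_ite_eq' P.support i1, if_pos hi1, hβ1, map_one]
    rw [h] at h1
    simp at h1
  -- the value of the reduced relation is small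
  have hyle : v y ≤ 1 := (B.valuation_le_one_iff _).mpr hy
  have hev : v (Q.eval₂ ψ y) < 1 := by
    have h1 : Q.eval₂ ψ y = ∑ i ∈ P.support, ψ (PowerSeries.constantCoeff (β i)) * y ^ i := by
      rw [hQ, Polynomial.eval₂_finsetSum]
      simp [Polynomial.eval₂_monomial]
    have h0 : ∑ i ∈ P.support, φ (P.coeff i / P.coeff i1) * y ^ i = 0 := by
      have h3 : ∑ i ∈ P.support, φ (P.coeff i / P.coeff i1) * y ^ i
          = (φ (P.coeff i1))⁻¹ * ∑ i ∈ P.support, φ (P.coeff i) * y ^ i := by
        rw [Finset.mul_sum]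
        refine Finset.sum_congr rfl fun i _ => ?_
        rw [map_div₀]
        ring
      have h4 : ∑ i ∈ P.support, φ (P.coeff i) * y ^ i = 0 := by
        rw [← hPy, Polynomial.aeval_def, Polynomial.eval₂_eq_sum, Polynomial.sum_def]
      rw [h3, h4, mul_zero]
    have h2 : Q.eval₂ ψ y = ∑ i ∈ P.support,
        (ψ (PowerSeries.constantCoeff (β i)) - φ (P.coeff i / P.coeff i1)) * y ^ i := by
      rw [h1, ← sub_zero (∑ i ∈ P.support, ψ (PowerSeries.constantCoeff (β i)) * y ^ i), ← h0,
        ← Finset.sum_sub_distrib]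
      refine Finset.sum_congr rfl fun i _ => ?_
      ring
    rw [h2]
    refine Valuation.map_sum_lt v one_ne_zero (fun i _ => ?_)
    rw [map_mul, map_pow]
    have hsmall : v (ψ (PowerSeries.constantCoeff (β i)) - φ (P.coeff i / P.coeff i1)) < 1 := by
      obtain ⟨γ, hγ⟩ : PowerSeries.X ∣ β i - PowerSeries.C (PowerSeries.constantCoeff (β i)) := by
        rw [PowerSeries.X_dvd_iff]
        simp
      have hrew : ψ (PowerSeries.constantCoeff (β i)) - φ (P.coeff i / P.coeff i1)
          = - (sVar k L * φ (HahnSeries.ofPowerSeries ℤ k γ)) := by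
        rw [hβ i, hψ]
        simp only [RingHom.comp_apply]
        rw [← map_sub, ← map_sub, ← neg_sub, hγ, map_neg, map_neg, map_mul,
          HahnSeries.ofPowerSeries_X, map_mul]
      rw [hrew, Valuation.map_neg, map_mul]
      have hs1 : v (sVar k L) < 1 := B.mem_nonunits_iff.mp hX
      have hγ1 : v (φ (HahnSeries.ofPowerSeries ℤ k γ)) ≤ 1 := (B.valuation_le_one_iff _).mpr (hB γ)
      calc v (sVar k L) * v (φ (HahnSeries.ofPowerSeries ℤ k γ)) ≤ v (sVar k L) * 1 :=
            mul_le_mul_right hγ1 _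
        _ < 1 := by rwa [mul_one]
    calc v (ψ (PowerSeries.constantCoeff (β i)) - φ (P.coeff i / P.coeff i1)) * v y ^ i
        ≤ v (ψ (PowerSeries.constantCoeff (β i)) - φ (P.coeff i / P.coeff i1)) * 1 :=
          mul_le_mul_right (pow_le_one₀ zero_le hyle) _
      _ < 1 := by rwa [mul_one]
  rw [eval₂_eq_prod_roots_of_isAlgClosed, map_mul] at hev
  have hlc : v (ψ Q.leadingCoeff) = 1 := by
    apply valuation_unit_powerSeries B hB
    exact (isUnit_iff_ne_zero.mpr (leadingCoeff_ne_zero.mpr hQ0)).map _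
  rw [hlc, one_mul] at hev
  by_contra hcon
  push Not at hcon
  have hall : ∀ r ∈ Q.roots, v (y - ψ r) = 1 := by
    intro r _
    have h1 : v (y - ψ r) ≤ 1 := (B.valuation_le_one_iff _).mpr (B.sub_mem hy (hB _))
    have h2 : ¬ v (y - ψ r) < 1 := hcon r
    exact le_antisymm h1 (not_lt.mp h2)
  have hprod : v (Q.roots.map (fun r => y - ψ r)).prod = 1 := by
    rw [map_multiset_prod, Multiset.map_map]
    apply Multiset.prod_eq_one
    intro x hx
    obtain ⟨r, hr, rfl⟩ := Multiset.mem_map.mp hx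
    exact hall r hr
  rw [hprod] at hev
  exact lt_irrefl _ hev

end Residue

section Concrete

/-- Laurent series over a countable field have the cardinality of the continuum. -/
theorem mk_laurentSeries_eq_continuum (k : Type) [Field k] (hk : #k ≤ ℵ₀) :
    #(LaurentSeries k) = 𝔠 := by
  classical
  apply le_antisymm
  · have h1 : #(LaurentSeries k) ≤ #(ℤ → k) :=
      Cardinal.mk_le_of_injective (f := fun x : LaurentSeries k => x.coeff)
        HahnSeries.coeff_injective
    refine h1.trans ?_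
    rw [← Cardinal.power_def]
    calc #k ^ #ℤ ≤ ℵ₀ ^ #ℤ := Cardinal.power_le_power_right hk
      _ = ℵ₀ ^ ℵ₀ := by rw [Cardinal.mk_int]
      _ = 𝔠 := Cardinal.aleph0_power_aleph0
  · rw [← Cardinal.two_power_aleph0, ← Cardinal.mk_nat, ← Cardinal.mk_set]
    refine Cardinal.mk_le_of_injective (f := fun S : Set ℕ =>
      HahnSeries.ofPowerSeries ℤ k (PowerSeries.mk fun n => if n ∈ S then (1 : k) else 0)) ?_
    intro S T h
    have h' := HahnSeries.ofPowerSeries_injective h
    ext n
    have h2 := congrArg (PowerSeries.coeff n) h'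
    simp only [PowerSeries.coeff_mk] at h2
    by_cases hS : n ∈ S <;> by_cases hT : n ∈ T <;> simp_all

/-- The auxiliary algebraically closed valued field. -/
abbrev ClosedLaurent : Type := AlgebraicClosure (LaurentSeries (AlgebraicClosure ℚ))

theorem mk_closedLaurent : #ClosedLaurent = 𝔠 := by
  have halgQ : Algebra.IsAlgebraic ℚ (AlgebraicClosure ℚ) := AlgebraicClosure.isAlgebraic ℚ
  have hK : #(AlgebraicClosure ℚ) ≤ ℵ₀ := by
    have h := Algebra.IsAlgebraic.cardinalMk_le_max ℚ (AlgebraicClosure ℚ)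
    simpa using h
  have hE := mk_laurentSeries_eq_continuum (AlgebraicClosure ℚ) hK
  apply le_antisymm
  · have h := Algebra.IsAlgebraic.cardinalMk_le_max (LaurentSeries (AlgebraicClosure ℚ))
      ClosedLaurent
    rw [hE, max_eq_left Cardinal.aleph0_le_continuum] at h
    exact h
  · rw [← hE]
    exact Cardinal.mk_le_of_injective
      (algebraMap (LaurentSeries (AlgebraicClosure ℚ)) ClosedLaurent).injective

theorem exists_ringEquiv_complex_closedLaurent : Nonempty (ℂ ≃+* ClosedLaurent) := by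
  have : CharZero (LaurentSeries (AlgebraicClosure ℚ)) :=
    charZero_of_injective_ringHom (HahnSeries.C_injective (Γ := ℤ) (R := AlgebraicClosure ℚ))
  have : CharZero ClosedLaurent :=
    charZero_of_injective_algebraMap
      (algebraMap (LaurentSeries (AlgebraicClosure ℚ)) ClosedLaurent).injective
  apply IsAlgClosed.ringEquiv_of_equiv_of_charZero
  · rw [Cardinal.mk_complex]
    exact Cardinal.aleph0_lt_continuum
  · exact Cardinal.eq.mp (by rw [Cardinal.mk_complex, mk_closedLaurent])

theorem exists_valuationSubring_closedLaurent :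
    ∃ B : ValuationSubring ClosedLaurent,
      (∀ a : PowerSeries (AlgebraicClosure ℚ),
        algebraMap (LaurentSeries (AlgebraicClosure ℚ)) ClosedLaurent
          (HahnSeries.ofPowerSeries ℤ (AlgebraicClosure ℚ) a) ∈ B) ∧
      sVar (AlgebraicClosure ℚ) ClosedLaurent ∈ B.nonunits := by
  set f : PowerSeries (AlgebraicClosure ℚ) →+* ClosedLaurent :=
    (algebraMap (LaurentSeries (AlgebraicClosure ℚ)) ClosedLaurent).comp
      (HahnSeries.ofPowerSeries ℤ (AlgebraicClosure ℚ)) with hf
  obtain ⟨B, h, hloc⟩ := IsLocalRing.exists_factor_valuationRing f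
  refine ⟨B, fun a => h a, ?_⟩
  have hX : sVar (AlgebraicClosure ℚ) ClosedLaurent = f PowerSeries.X := by
    simp [hf, HahnSeries.ofPowerSeries_X]
  rw [ValuationSubring.mem_nonunits_iff_exists_mem_maximalIdeal]
  refine ⟨hX ▸ h _, ?_⟩
  rw [IsLocalRing.mem_maximalIdeal, mem_nonunits_iff]
  intro hu
  have hu' : IsUnit (f.codRestrict B.toSubring h PowerSeries.X) := by
    convert hu using 1
    exact Subtype.ext hX.symm
  have hXu : IsUnit (PowerSeries.X : PowerSeries (AlgebraicClosure ℚ)) := hloc.map_nonunit _ hu'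
  rw [PowerSeries.isUnit_iff_constantCoeff] at hXu
  simp at hXu

/-- **Leaf (V) over the complex numbers.** There is a valuation subring of `ℂ` containing the
algebraic numbers, with residue field the algebraic numbers, of rank one and nontrivial. -/
theorem exists_valuationSubring_complex (ι : AlgebraicClosure ℚ →+* ℂ) :
    ∃ A : ValuationSubring ℂ, (∀ c, ι c ∈ A) ∧ (∃ t : ℂ, t ≠ 0 ∧ t ∈ A.nonunits) ∧
      (∀ y ∈ A, ∃ c, y - ι c ∈ A.nonunits) ∧
      (∀ a c : ℂ, a ∈ A.nonunits → c ≠ 0 → ∃ n : ℕ, a ^ n * c⁻¹ ∈ A) := by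
  have halgQ : Algebra.IsAlgebraic ℚ (AlgebraicClosure ℚ) := AlgebraicClosure.isAlgebraic ℚ
  obtain ⟨e⟩ := exists_ringEquiv_complex_closedLaurent
  obtain ⟨B, hB, hX⟩ := exists_valuationSubring_closedLaurent
  set ψ : AlgebraicClosure ℚ →+* ClosedLaurent :=
    (algebraMap (LaurentSeries (AlgebraicClosure ℚ)) ClosedLaurent).comp
      ((HahnSeries.ofPowerSeries ℤ (AlgebraicClosure ℚ)).comp PowerSeries.C) with hψ
  have hψB : ∀ c, ψ c ∈ B := fun c => hB _
  have hnon : ∀ x : ℂ, x ∈ (B.comap (e : ℂ →+* ClosedLaurent)).nonunits ↔ e x ∈ B.nonunits := by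
    intro x
    rw [ValuationSubring.mem_nonunits_iff_or, ValuationSubring.mem_nonunits_iff_or,
      ValuationSubring.mem_comap]
    simp
  refine ⟨B.comap (e : ℂ →+* ClosedLaurent), ?_, ?_, ?_, ?_⟩
  · intro c
    rw [ValuationSubring.mem_comap]
    obtain ⟨c', hc'⟩ := exists_map_eq_of_isAlgebraic ((e : ℂ →+* ClosedLaurent).comp ι) ψ c
    have h1 : (e : ℂ →+* ClosedLaurent) (ι c) = ψ c' := hc'.symm
    rw [h1]
    exact hψB c'
  · refine ⟨e.symm (sVar (AlgebraicClosure ℚ) ClosedLaurent), ?_, ?_⟩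
    · simp
    · rw [hnon]
      simpa using hX
  · intro y hy
    rw [ValuationSubring.mem_comap] at hy
    obtain ⟨c', hc'⟩ := residue_of_core B hB hX (e y) hy
    obtain ⟨c, hc⟩ := exists_map_eq_of_isAlgebraic ψ ((e : ℂ →+* ClosedLaurent).comp ι) c'
    refine ⟨c, ?_⟩
    rw [hnon, map_sub]
    have h1 : e (ι c) = ψ c' := hc
    rw [h1]
    exact hc'
  · intro a c ha hc
    rw [hnon] at ha
    obtain ⟨n, hn⟩ := harch_of_core B hB hX (e a) (e c) ha ((_root_.map_ne_zero e).mpr hc)
    refine ⟨n, ?_⟩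
    rw [ValuationSubring.mem_comap]
    simpa using hn

end Concrete

end Fermat.Agent.S42.H72
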