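/-
Leaf (V) over the complex numbers: consumer shapes of `exists_valuationSubring_complex`
(helper72).  Nothing new is proved here.
-/
import Mathlib
import Fermat.Agent.S42.H72.ValC

set_option autoImplicit false

noncomputable section

namespace Fermat.Agent.S42.H72

/-- A valuation subring with a nonzero nonunit is not the whole field. -/
theorem valuationSubring_ne_top_of_nonunit {F : Type*} [Field F] (A : ValuationSubring F) {t : F}
    (ht0 : t ≠ 0) (ht : t ∈ A.nonunits) : A ≠ ⊤ := by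
  rintro rfl
  rcases (ValuationSubring.mem_nonunits_iff_or _).mp ht with h | h
  · exact ht0 h
  · exact h (ValuationSubring.mem_top _)

/-- Leaf (V) over `ℂ` with `A ≠ ⊤` as a conjunct. -/
theorem exists_valuationSubring_complex_ne_top (ι : AlgebraicClosure ℚ →+* ℂ) :
    ∃ A : ValuationSubring ℂ, A ≠ ⊤ ∧ (∀ c, ι c ∈ A) ∧
      (∀ y ∈ A, ∃ c, y - ι c ∈ A.nonunits) ∧
      (∀ a c : ℂ, a ∈ A.nonunits → c ≠ 0 → ∃ n : ℕ, a ^ n * c⁻¹ ∈ A) := by
  obtain ⟨A, h1, ⟨t, ht0, ht⟩, h3, h4⟩ := exists_valuationSubring_complex ι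
  exact ⟨A, valuationSubring_ne_top_of_nonunit A ht0 ht, h1, h3, h4⟩

/-- Leaf (V) over `ℂ`, for an algebra structure of `ℂ` over the algebraic numbers. -/
theorem exists_valuationSubring_complex_algebra [Algebra (AlgebraicClosure ℚ) ℂ] :
    ∃ A : ValuationSubring ℂ, A ≠ ⊤ ∧ (∀ c, algebraMap (AlgebraicClosure ℚ) ℂ c ∈ A) ∧
      (∀ y ∈ A, ∃ c, y - algebraMap (AlgebraicClosure ℚ) ℂ c ∈ A.nonunits) ∧
      (∀ a c : ℂ, a ∈ A.nonunits → c ≠ 0 → ∃ n : ℕ, a ^ n * c⁻¹ ∈ A) :=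
  exists_valuationSubring_complex_ne_top (algebraMap (AlgebraicClosure ℚ) ℂ)

/-- The exponent condition of the abstract Theorem T: nonzero naturals are units of `A`. -/
theorem natCast_inv_mem_of_const_mem (ι : AlgebraicClosure ℚ →+* ℂ) (A : ValuationSubring ℂ)
    (hA : ∀ c, ι c ∈ A) (m : ℕ) : ((m : ℂ))⁻¹ ∈ A := by
  have h := hA ((m : AlgebraicClosure ℚ))⁻¹
  rwa [map_inv₀, map_natCast] at h

end Fermat.Agent.S42.H72
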